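/-
S56 / [GW-EC], cell [EC-FIN] (helper22): finiteness of the Tate–Shafarevich groups, re-exported
from the proof of S55 (`du_main` for the concrete seam), in level cohomology.
Prefix `s56efn_`.
-/
import Fermat.Agent.S56.GW.Dual.Base
import Fermat.Agent.S55.Dual.Top
import Fermat.Agent.S55.Dual.XFinal
import Fermat.Agent.S55.Dual.Assemble

set_option autoImplicit false
set_option linter.unusedSectionVars false

open CategoryTheory groupCohomology ExtCitation

namespace Fermat.Agent.S56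

open Fermat.Agent.S55

local notation "Qbar" => AlgebraicClosure ℚ
local notation "GQ" => (AlgebraicClosure ℚ ≃ₐ[ℚ] AlgebraicClosure ℚ)

variable {p : ℕ} [Fact p.Prime]

/-- **`Ш¹_S(M')` and `Ш²_S(M)` are finite** (level cohomology). -/
theorem s56efn_sha_fin (hp2 : p ≠ 2) (S : Finset Nat.Primes) (hpS : pPrime p ∈ S)
    (M : Rep.{0} (ZMod p) GQ) [FiniteDimensional (ZMod p) M]
    (hsm : s56gw_Smooth M) (hur : s56gw_UnrOut S M) :
    Finite ↥(tl_lvSha1 S (M.dualTwist (cycloChar p))) ∧ Finite ↥(tl_lvSha2 S M) := by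
  obtain ⟨ζ, hζ⟩ := du_exists_zeta p
  obtain ⟨K, hM, hχ, hA'⟩ := du_exists_K0 S M hpS hsm hur
  have hA : ∀ σ ∈ K.L.fixingSubgroup, ∀ x : (M.dualTwist (cycloChar p)).V,
      (M.dualTwist (cycloChar p)).ρ σ x = x := by
    intro σ hσ x
    rw [hA' σ hσ]
    rfl
  obtain ⟨hf1, hf2, -⟩ := du_main (s56gd_seam hp2 S hpS) M K hA (du_TN (s56gd_seam hp2 S hpS))
    (ab_seam (s56gd_seam hp2 S hpS) K)
    ⟨K, fun a h _ => du_hX_of (s56gd_seam hp2 S hpS) M K hA hpS hζ
      (bi_du_V2 (s56gd_seam hp2 S hpS) hpS M K hA) h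
      (xf_D3X (s56gd_seam hp2 S hpS) M K hA hpS hζ h)⟩
  exact ⟨hf1, hf2⟩

end Fermat.Agent.S56
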