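/-
S56 / [GW-EC], cell [EC-FIN] (helper22): finiteness of `H¹(G_S, M)` and `H²(G_S, M)`.

  `s56efn_H1S_fin`  : `FiniteDimensional (ZMod p) (continuousH1S S M)`     (unconditional)
  `s56efn_H2S_fin`  : the same for `continuousH2S S M`, from the finiteness of the local `H²` at the
                      primes of `S`
  `s56efn_main (hLEC : s56gw_LEC_stmt) : s56eg_Fin_stmt`.

`H^i(G_S, M) / Ш^i ↪ ∏_{q ∈ S} H^i(G_q, M)` in level cohomology; `Ш¹`, `Ш²` are finite by S55
(`s56efn_sha_fin`), the local `H¹` by `s56gdl_fin_main`.  Prefix `s56efn_`.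
-/
import Fermat.Agent.S56.GW.EC.GDef
import Fermat.Agent.S56.GW.EC.Fin.Sha
import Fermat.Agent.S56.GW.Dual.D3.Fin
import Fermat.Agent.S55.Trans.H1Bridge
import Fermat.Agent.S55.Trans.H2Bridge

set_option autoImplicit false
set_option linter.unusedSectionVars false

open CategoryTheory groupCohomology ExtCitation

namespace Fermat.Agent.S56

open Fermat.Agent.S55

local notation "Qbar" => AlgebraicClosure ℚ
local notation "GQ" => (AlgebraicClosure ℚ ≃ₐ[ℚ] AlgebraicClosure ℚ)

/-- An abelian group mapping to finitely many finite groups with finite joint kernel is finite. -/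
theorem s56efn_finite_of_ker {A : Type*} [AddCommGroup A] {ι : Type*} [Finite ι]
    {B : ι → Type*} [∀ i, AddCommGroup (B i)] [∀ i, Finite (B i)] (f : ∀ i, A →+ B i)
    (hK : Finite ↥(⨅ i, (f i).ker)) : Finite A := by
  set F : A →+ (∀ i, B i) := AddMonoidHom.mk' (fun a i => f i a) (fun a b => by
    funext i
    exact map_add (f i) a b) with hF
  have hker : F.ker = ⨅ i, (f i).ker := by
    ext a
    rw [AddMonoidHom.mem_ker, AddSubgroup.mem_iInf]
    constructor
    · intro h i
      exact congrFun h i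
    · intro h
      funext i
      exact h i
  haveI : Finite ↥F.ker := by
    rw [hker]
    exact hK
  haveI : Finite (A ⧸ F.ker) :=
    Finite.of_injective _ (QuotientAddGroup.kerLift_injective F)
  exact Finite.of_addSubgroup_quotient F.ker

section coeff

variable {G : Type*} [Group G] (L : LevelSys G) {X Y : Type*} [AddCommGroup X]
  [DistribMulAction G X] [AddCommGroup Y] [DistribMulAction G Y]

/-- An equivariant injection of coefficients with an equivariant retraction is injective on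
`H¹`. -/
theorem s56efn_coeff_H1_injective (φ : X →+ Y) (hφ : ∀ (g : G) (x : X), φ (g • x) = g • φ x)
    (ψ : Y →+ X) (hψ : ∀ (g : G) (y : Y), ψ (g • y) = g • ψ y) (hψφ : ∀ x, ψ (φ x) = x) :
    Function.Injective (LvMor.ofCoeff L φ hφ).H1 := by
  have h : ∀ y, (LvMor.ofCoeff L ψ hψ).H1 ((LvMor.ofCoeff L φ hφ).H1 y) = y := by
    intro y
    obtain ⟨c, rfl⟩ := lvH1mk_surjective y
    rw [LvMor.H1_mk, LvMor.H1_mk]
    congr 1
    apply Subtype.ext
    funext g
    exact hψφ _
  exact Function.LeftInverse.injective h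

end coeff

section main

variable {p : ℕ} [Fact p.Prime] (hp2 : p ≠ 2) (S : Finset Nat.Primes) (hpS : pPrime p ∈ S)
  (M : Rep.{0} (ZMod p) GQ) [FiniteDimensional (ZMod p) M]

/-- the evaluation `M → M''` on the level-cohomology carriers -/
noncomputable def s56efn_ev : tl_Act M →+ tl_Act (s56gw_dual (s56gw_dual M)) :=
  (Module.Dual.eval (ZMod p) M.V).toAddMonoidHom

theorem s56efn_ev_smul (g : GQ) (m : tl_Act M) : s56efn_ev M (g • m) = g • s56efn_ev M m :=
  (s56gdlc_ev_comm M g m).symm

/-- its inverse -/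
noncomputable def s56efn_evInv : tl_Act (s56gw_dual (s56gw_dual M)) →+ tl_Act M :=
  (Module.evalEquiv (ZMod p) M.V).symm.toLinearMap.toAddMonoidHom

theorem s56efn_evInv_ev (m : tl_Act M) : s56efn_evInv M (s56efn_ev M m) = m :=
  (Module.evalEquiv (ZMod p) M.V).symm_apply_apply m

theorem s56efn_evInv_smul (g : GQ) (y : tl_Act (s56gw_dual (s56gw_dual M))) :
    s56efn_evInv M (g • y) = g • s56efn_evInv M y := by
  obtain ⟨m, rfl⟩ : ∃ m : tl_Act M, s56efn_ev M m = y :=
    ⟨(Module.evalEquiv (ZMod p) M.V).symm y, (Module.evalEquiv (ZMod p) M.V).apply_symm_apply y⟩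
  rw [← s56efn_ev_smul, s56efn_evInv_ev, s56efn_evInv_ev]

include hp2 hpS in
/-- **`Ш¹_S(M)` is finite** (level cohomology). -/
theorem s56efn_sha1_fin (hsm : s56gw_Smooth M) (hur : s56gw_UnrOut S M) :
    Finite ↥(tl_lvSha1 S M) := by
  haveI := (s56efn_sha_fin hp2 S hpS (s56gw_dual M) (tl_dualTwist_smooth M hsm)
    (tl_dualTwist_unramified M S hpS hur)).1
  set m := LvMor.ofCoeff (tl_levelsS S) (s56efn_ev M) (s56efn_ev_smul M) with hm
  have hmem : ∀ y ∈ tl_lvSha1 S M, m.H1 y ∈ tl_lvSha1 S (s56gw_dual (s56gw_dual M)) := by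
    intro y hy
    rw [tl_mem_lvSha1] at hy ⊢
    intro q
    have h1 : (tl_locMor S (primeLocalToGlobal q.1) (s56gw_dual (s56gw_dual M))).H1 (m.H1 y) =
        (LvMor.ofCoeff (tl_levelsVia (primeLocalToGlobal q.1))
          (X := tl_Act (Rep.res (primeLocalToGlobal q.1) M))
          (Y := tl_Act (Rep.res (primeLocalToGlobal q.1) (s56gw_dual (s56gw_dual M))))
          (s56efn_ev M) (fun g x => s56efn_ev_smul M (primeLocalToGlobal q.1 g) x)).H1
          ((tl_locMor S (primeLocalToGlobal q.1) M).H1 y) := by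
      obtain ⟨c, rfl⟩ := lvH1mk_surjective y
      rfl
    rw [h1, hy q, map_zero]
  have hinj : Function.Injective m.H1 :=
    s56efn_coeff_H1_injective (tl_levelsS S) (s56efn_ev M) (s56efn_ev_smul M) (s56efn_evInv M)
      (s56efn_evInv_smul M) (s56efn_evInv_ev M)
  exact Finite.of_injective
    (fun y : ↥(tl_lvSha1 S M) =>
      (⟨m.H1 y.1, hmem y.1 y.2⟩ : ↥(tl_lvSha1 S (s56gw_dual (s56gw_dual M)))))
    (fun y y' h => Subtype.ext (hinj (congrArg Subtype.val h)))

include hp2 hpS in
/-- **`H¹(G_S, M)` is finite** (level cohomology). -/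
theorem s56efn_lvH1_fin (hsm : s56gw_Smooth M) (hur : s56gw_UnrOut S M) :
    Finite (lvH1 (tl_levelsS S) (tl_Act M)) := by
  haveI : ∀ q : ↥S, Finite (lvH1 (tl_levelsVia (primeLocalToGlobal q.1))
      (tl_Act (Rep.res (primeLocalToGlobal q.1) M))) := fun q => s56gdl_fin_main M hsm q.1
  exact s56efn_finite_of_ker (fun q : ↥S => (tl_locMor S (primeLocalToGlobal q.1) M).H1)
    (s56efn_sha1_fin hp2 S hpS M hsm hur)

include hp2 hpS in
/-- **`H¹(G_S, M)` is finite-dimensional.** -/
theorem s56efn_H1S_fin (hsm : s56gw_Smooth M) (hur : s56gw_UnrOut S M) :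
    FiniteDimensional (ZMod p) (continuousH1S S M) := by
  haveI := s56efn_lvH1_fin hp2 S hpS M hsm hur
  have hsurj : Function.Surjective (fun y : lvH1 (tl_levelsS S) (tl_Act M) =>
      (⟨tl_H1_hom (tl_levelsS S) M y, (tl_range_H1_hom S M _).2 ⟨y, rfl⟩⟩ :
        ↥(continuousH1S S M))) := by
    rintro ⟨x, hx⟩
    obtain ⟨y, hy⟩ := (tl_range_H1_hom S M x).1 hx
    exact ⟨y, Subtype.ext hy⟩
  haveI : Finite ↥(continuousH1S S M) := Finite.of_surjective _ hsurj
  exact Module.Finite.of_finite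

include hp2 hpS in
/-- **`H²(G_S, M)` is finite-dimensional** if the local `H²` at the primes of `S` are. -/
theorem s56efn_H2S_fin (hsm : s56gw_Smooth M) (hur : s56gw_UnrOut S M)
    (hloc : ∀ q ∈ S, FiniteDimensional (ZMod p)
      (continuousH2 (primeLocalToGlobal q) (s56gw_res M q))) :
    FiniteDimensional (ZMod p) (continuousH2S S M) := by
  haveI : ∀ q : ↥S, Finite (lvH2 (tl_levelsVia (primeLocalToGlobal q.1))
      (tl_Act (Rep.res (primeLocalToGlobal q.1) M))) := by
    intro q
    haveI := hloc q.1 q.2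
    haveI : Finite (continuousH2 (primeLocalToGlobal q.1) (s56gw_res M q.1)) :=
      Module.finite_of_finite (ZMod p)
    exact Finite.of_equiv _
      (tl_H2via_equiv (primeLocalToGlobal q.1) (Rep.res (primeLocalToGlobal q.1) M)).toEquiv
  haveI : Finite (lvH2 (tl_levelsS S) (tl_Act M)) :=
    s56efn_finite_of_ker (fun q : ↥S => (tl_locMor S (primeLocalToGlobal q.1) M).H2)
      (s56efn_sha_fin hp2 S hpS M hsm hur).2
  haveI : Finite (continuousH2S S M) := Finite.of_equiv _ (tl_H2S_equiv S M).symm.toEquiv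
  exact Module.Finite.of_finite

end main

/-- **[EC-FIN]: `s56eg_Fin_stmt`** from the finiteness part of the local Euler characteristic
seam. -/
theorem s56efn_main (hLEC : s56gw_LEC_stmt) : s56eg_Fin_stmt := by
  intro p _ hp2 S hpS M _ hsm hur
  exact ⟨s56efn_H1S_fin hp2 S hpS M hsm hur,
    s56efn_H2S_fin hp2 S hpS M hsm hur (fun q _ => (hLEC p hp2 M hsm q).2.1)⟩

end Fermat.Agent.S56
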